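import Fermat.Agent.S19.H.Pair
import Fermat.Prelude.Def_ModularCurve_ArithmeticGalois

/-!
# S32 : definitions

`HasPair A V` : the finite `GQ`-module `V` admits an equivariant bimultiplicative pairing
`e : V × W → Qbˣ`, non degenerate on the left, with `W` a finite `GQ`-module of finite level, such
that every `e x` lies in `MD A W` (the hypothesis of Theorem H of project S19, pairing form).
The class of these modules is stable under finite powers and sub-quotients.

`S19Out A N p` : what S32 consumes from project S19 (module A).
-/

set_option autoImplicit false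

noncomputable section

namespace Fermat.Agent.S32

open Fermat.Agent.S19

/-- the hypothesis of Theorem H (pairing form), as a property of `V`. -/
def HasPair (A : ValuationSubring Qb) (V : Type) [AddCommGroup V] [DistribMulAction GQ V] : Prop :=
  ∃ (W : Type) (_ : AddCommGroup W) (_ : DistribMulAction GQ W), Finite W ∧ FinLevel W ∧
    ∃ e : V → W → Qb, IsPairing e ∧ ∀ x, e x ∈ MD A W

/-- INTERFACE consumed from S19 (module A): for every `k` a finite `GQ`-module `V` mapping
equivariantly ONTO `J₀(N)[p^k]` and satisfying the hypothesis of Theorem H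
(`V = J₀(N)[p^k]`, `ι` the inclusion). -/
def S19Out (A : ValuationSubring Qb) (N p : ℕ) : Prop :=
  ∀ k : ℕ, ∃ (V : Type) (_ : AddCommGroup V) (_ : DistribMulAction GQ V) (ι : V →+ ModularCurve.JZero N),
    Finite V ∧ (∀ z : ModularCurve.JZero N, (p ^ k) • z = 0 → ∃ x, ι x = z) ∧
      (∀ (σ : GQ) (x : V), ι (σ • x) = σ • ι x) ∧ HasPair A V

/-- the action of an element `∑ n_g g` of the group ring `ℤ[GQ]`. -/
def gsum {X : Type} [AddCommGroup X] [DistribMulAction GQ X] (c : GQ →₀ ℤ) (x : X) : X :=
  c.sum fun g n => n • (g • x)

end Fermat.Agent.S32
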