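import Fermat.Agent.S32.Defs
import Fermat.Agent.S17.WMW.Fin
import Fermat.Agent.GR.I.Level
import Fermat.Agent.S17.FF.Basic

/-!
# S32 : a `ℤ[GQ]`-relation which holds on `J₀(N)[n]` holds on the Kummer classes `Λ / n`

`u` a Kummer function, `div u = n E`, `z = [E] ∈ J₀(N)[n]`.  `U := ∏_g (g u)^{c g}` is a Kummer function with
`div U = n ∑ c g • (g E)`, and `∑ c g • (g z) = 0` means `∑ c g • g E = div h`; then `U / h^n` has trivial
divisor, so it is a constant (`S17.FF.exists_const_of_ord_nonneg`, instance `S17.WMW.isFF_bar`), which is an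
`n`-th power in `Qb`: `KummerEquiv N n 1 U`, `theta n U = theta n 1 = 0`.
And `theta n U = ∑ c g • theta n (g u) = ∑ c g • act n g (theta n u)` (`theta_mul`, `act_theta`).
Dictionary `FB N = GR.FF Qb N`: see `S17/WMW/Fin.lean` (`S18.bar_eq_FF`, `S18.dvd_ord_transport`, `Fin_isKummer`),
`S17/WMW/Setup.lean` (`smul_mk`, `mk_eq_zero_iff`, `coe_gal_smul`, `ord_gal_smul'`).
-/

set_option autoImplicit false
set_option synthInstance.maxHeartbeats 400000

noncomputable section

namespace Fermat.Agent.S32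

open Fermat.Agent.S19 Fermat.Agent.GR AlgebraicCurve ModularCurve

variable {N : ℕ} [NeZero N]

/-- `theta` of the trivial class. -/
theorem theta_one (K : I.KummerData N) {n : ℕ} (hn : 0 < n) : K.theta n 1 = 0 := by
  have h := K.theta_mul n hn 1 1 kummer_isKummer_one kummer_isKummer_one
  rw [mul_one] at h
  exact left_eq_add.mp h

theorem theta_inv (K : I.KummerData N) {n : ℕ} (hn : 0 < n) {u : LaurentSeries Qb}
    (hu : IsKummer (N := N) n u) : K.theta n u⁻¹ = - K.theta n u := by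
  have h := K.theta_mul n hn u u⁻¹ hu hu.inv
  rw [mul_inv_cancel₀ hu.ne_zero, theta_one K hn] at h
  exact (neg_eq_of_add_eq_zero_right h.symm).symm

theorem theta_zpow (K : I.KummerData N) {n : ℕ} (hn : 0 < n) {u : LaurentSeries Qb}
    (hu : IsKummer (N := N) n u) (m : ℤ) :
    IsKummer (N := N) n (u ^ m) ∧ K.theta n (u ^ m) = m • K.theta n u := by
  have hnat : ∀ e : ℕ, K.theta n (u ^ e) = e • K.theta n u := by
    intro e
    induction e with
    | zero => rw [pow_zero, zero_smul, theta_one K hn]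
    | succ e ih => rw [pow_succ, K.theta_mul n hn _ _ (hu.pow e) hu, ih, succ_nsmul]
  cases m with
  | ofNat e =>
    rw [Int.ofNat_eq_natCast, zpow_natCast, natCast_zsmul]
    exact ⟨hu.pow e, hnat e⟩
  | negSucc e =>
    rw [zpow_negSucc, negSucc_zsmul]
    exact ⟨(hu.pow _).inv, by rw [theta_inv K hn (hu.pow _), hnat]⟩

/-- `theta (∏ (g u)^{c g}) = ∑ c g • g (theta u)`. -/
theorem theta_prod (K : I.KummerData N) {n : ℕ} (hn : 0 < n) {u : LaurentSeries Qb}
    (hu : IsKummer (N := N) n u) (c : GQ →₀ ℤ) :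
    IsKummer (N := N) n (c.prod fun g m => gal g u ^ m) ∧
      K.theta n (c.prod fun g m => gal g u ^ m) =
        c.sum fun g m => m • K.act n g (K.theta n u) := by
  classical
  induction c using Finsupp.induction_linear with
  | zero =>
    rw [Finsupp.prod_zero_index, Finsupp.sum_zero_index]
    exact ⟨kummer_isKummer_one, theta_one K hn⟩
  | add c c' ih ih' =>
    rw [Finsupp.prod_add_index' (fun g => zpow_zero _)
      (fun g m m' => zpow_add₀ (I.galStable n g _ hu).ne_zero m m'),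
      Finsupp.sum_add_index' (h := fun g m => m • K.act n g (K.theta n u))
        (fun g => zero_smul _ _) (fun g m m' => add_smul _ _ _)]
    exact ⟨ih.1.mul ih'.1, by rw [K.theta_mul n hn _ _ ih.1 ih'.1, ih.2, ih'.2]⟩
  | single g m =>
    rw [Finsupp.prod_single_index (zpow_zero _),
      Finsupp.sum_single_index (h := fun g m => m • K.act n g (K.theta n u)) (zero_smul _ _)]
    have h := theta_zpow K hn (I.galStable n g _ hu) m
    exact ⟨h.1, by rw [h.2, K.act_theta hn g hu]⟩

/-- the order of a product. -/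
theorem Dict_ord_prod {K F : Type*} [Field K] [Field F] [Algebra K F] (v : Place K F) {ι : Type*}
    (s : Finset ι) (f : ι → F) (hf : ∀ i ∈ s, f i ≠ 0) :
    v.ord (∏ i ∈ s, f i) = ∑ i ∈ s, v.ord (f i) := by
  classical
  induction s using Finset.induction_on with
  | empty => simp
  | insert i s hi ih =>
    rw [Finset.prod_insert hi, Finset.sum_insert hi,
      v.ord_mul (hf i (Finset.mem_insert_self _ _))
        (Finset.prod_ne_zero_iff.2 fun j hj => hf j (Finset.mem_insert_of_mem hj)),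
      ih fun j hj => hf j (Finset.mem_insert_of_mem hj)]

/-- GEOMETRIC CORE (no `KummerData`): if `∑ c g • g` kills `J₀(N)[n]` then `∏ (g u)^{c g}` is an `n`-th
power for every Kummer function `u`. -/
theorem kummerEquiv_prod {n : ℕ} (hn : 0 < n) (c : GQ →₀ ℤ)
    (hJ : ∀ z : JZero N, n • z = 0 → (c.sum fun g m => m • (g • z)) = 0)
    {u : LaurentSeries Qb} (hu : IsKummer (N := N) n u) :
    KummerEquiv N n 1 (c.prod fun g m => gal g u ^ m) := by
  have := S17.WMW.isFF_bar N
  have hn0 : (n : ℤ) ≠ 0 := by positivity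
  obtain ⟨hu0, hmem, hdvd⟩ := hu
  have hmemB : u ∈ S17.WMW.FB N := by
    rw [show S17.WMW.FB N = GR.FF Qb N from S18.bar_eq_FF N]
    exact hmem
  have hdvdB : ∀ v : Place Qb (S17.WMW.FB N), (n : ℤ) ∣ v.ord (⟨u, hmemB⟩ : S17.WMW.FB N) :=
    S18.dvd_ord_transport (S18.bar_eq_FF N).symm n u hmem hmemB hdvd
  set uB : S17.WMW.FB N := ⟨u, hmemB⟩ with huB
  have huB0 : uB ≠ 0 := fun h0 => hu0 (congrArg Subtype.val h0)
  -- the divisor `E = (div u) / n`
  let E : Divisor Qb (S17.WMW.FB N) :=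
    (S17.FF.divf (K := Qb) uB).mapRange (fun a => a / (n : ℤ)) (by simp)
  have hE : ∀ v : Place Qb (S17.WMW.FB N), (n : ℤ) * E v = v.ord uB := by
    intro v
    show (n : ℤ) * (v.ord uB / (n : ℤ)) = v.ord uB
    exact Int.mul_ediv_cancel' (hdvdB v)
  have hnE : n • E = S17.FF.divf (K := Qb) uB := by
    ext v
    rw [Finsupp.smul_apply, nsmul_eq_mul, hE v, S17.FF.divf_apply]
  have hdeg : Divisor.degree E = 0 := by
    have h1 : n • Divisor.degree E = 0 := by
      rw [← map_nsmul, hnE, S17.FF.degree_divf]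
    rw [nsmul_eq_mul] at h1
    exact (mul_eq_zero.1 h1).resolve_left hn0
  let E0 : Divisor.degZero (K := Qb) (F := S17.WMW.FB N) := ⟨E, hdeg⟩
  have hz : n • (Pic0.mk E0 : JZero N) = 0 := by
    have h1 : n • (Pic0.mk E0 : JZero N) = Pic0.mk (n • E0) := rfl
    rw [h1, S17.WMW.mk_eq_zero_iff]
    refine ⟨uB, huB0, fun v => ?_⟩
    rw [AddSubgroup.coe_nsmul, Finsupp.smul_apply, nsmul_eq_mul]
    exact hE v
  -- the relation
  have hrel := hJ _ hz
  have hsum : (c.sum fun g m => m • (g • (Pic0.mk E0 : JZero N))) =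
      Pic0.mk (c.sum fun g m => m • SemilinearAut.degZeroSMulHom (S17.WMW.gal N g) E0) := by
    let mkHom : Divisor.degZero (K := Qb) (F := S17.WMW.FB N) →+ JZero N :=
      QuotientAddGroup.mk' _
    show _ = mkHom _
    rw [map_finsuppSum]
    refine Finsupp.sum_congr fun g _ => ?_
    rw [map_zsmul]
    rfl
  rw [hsum, S17.WMW.mk_eq_zero_iff] at hrel
  obtain ⟨h, hh0, hh⟩ := hrel
  -- the function `U`
  let U : S17.WMW.FB N := c.prod fun g m => (S17.WMW.gal N g • uB) ^ m
  have hUcoe : (U : LaurentSeries Qb) = c.prod fun g m => gal g u ^ m := by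
    show ((S17.WMW.FB N).val U) = _
    rw [map_finsuppProd]
    refine Finsupp.prod_congr fun g _ => ?_
    rw [map_zpow₀]
    rfl
  have hgu0 : ∀ g : GQ, S17.WMW.gal N g • uB ≠ 0 := by
    intro g h0
    exact huB0 ((smul_eq_zero_iff_eq _).1 h0)
  have hU0 : U ≠ 0 := Finset.prod_ne_zero_iff.2 fun g _ => zpow_ne_zero _ (hgu0 g)
  have hordU : ∀ v : Place Qb (S17.WMW.FB N), v.ord U = (n : ℤ) * v.ord h := by
    intro v
    rw [← hh v]
    have h1 : v.ord U = c.sum fun g m => m * v.ord (S17.WMW.gal N g • uB) := by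
      show v.ord (∏ g ∈ c.support, (S17.WMW.gal N g • uB) ^ (c g)) = _
      rw [Dict_ord_prod v _ _ fun g _ => zpow_ne_zero _ (hgu0 g)]
      refine Finset.sum_congr rfl fun g _ => ?_
      rw [v.ord_zpow]
    have h2 : (((c.sum fun g m => m • SemilinearAut.degZeroSMulHom (S17.WMW.gal N g) E0 :
        Divisor.degZero (K := Qb) (F := S17.WMW.FB N)) : Divisor Qb (S17.WMW.FB N))) v =
        c.sum fun g m => m * E ((S17.WMW.gal N g)⁻¹ • v) := by
      let ev : Divisor.degZero (K := Qb) (F := S17.WMW.FB N) →+ ℤ :=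
        (Finsupp.applyAddHom v).comp (Divisor.degZero (K := Qb) (F := S17.WMW.FB N)).subtype
      show ev _ = _
      rw [map_finsuppSum]
      refine Finsupp.sum_congr fun g _ => ?_
      rw [map_zsmul, smul_eq_mul]
      congr 1
      exact SemilinearAut.divisor_smul_apply (S17.WMW.gal N g) E v
    rw [h1, h2, Finsupp.sum, Finsupp.sum, Finset.mul_sum]
    refine Finset.sum_congr rfl fun g _ => ?_
    rw [S17.WMW.ord_gal_smul', ← hE]
    ring
  -- `U / h ^ n` is a constant
  have hhn0 : h ^ n ≠ 0 := pow_ne_zero n hh0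
  obtain ⟨d0, hd0⟩ := S17.FF.exists_const_of_ord_nonneg (K := Qb) (f := U / h ^ n) (by
    intro v
    rw [div_eq_mul_inv, v.ord_mul hU0 (inv_ne_zero hhn0), v.ord_inv, ← zpow_natCast, v.ord_zpow,
      hordU v]
    simp)
  obtain ⟨d, hd⟩ := IsAlgClosed.exists_pow_nat_eq d0 hn
  have hUeq : U = (algebraMap Qb (S17.WMW.FB N) d * h) ^ n := by
    rw [mul_pow, ← map_pow, hd, ← hd0, div_mul_cancel₀ _ hhn0]
  have hz0 : algebraMap Qb (S17.WMW.FB N) d * h ≠ 0 := by
    intro h0
    rw [h0, zero_pow hn.ne'] at hUeq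
    exact hU0 hUeq
  refine ⟨((algebraMap Qb (S17.WMW.FB N) d * h : S17.WMW.FB N) : LaurentSeries Qb), ?_,
    fun h0 => hz0 (Subtype.ext h0), ?_⟩
  · rw [← S18.bar_eq_FF N]
    exact Subtype.property _
  · rw [one_mul, ← hUcoe, hUeq]
    rfl

/-- a relation on `J₀(N)[n]` holds on `Λ / n`. -/
theorem sum_act_eq_zero (K : I.KummerData N) {n : ℕ} (hn : 0 < n) (c : GQ →₀ ℤ)
    (hJ : ∀ z : JZero N, n • z = 0 → (c.sum fun g m => m • (g • z)) = 0) (x : K.Λ) :
    (c.sum fun g m => m • K.act n g (K.red n x)) = 0 := by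
  obtain ⟨u, hu, hux⟩ := K.theta_surj n hn x
  rw [← hux, ← (theta_prod K hn hu c).2, ← theta_one K hn]
  exact ((K.theta_eq_iff n hn _ _ kummer_isKummer_one (theta_prod K hn hu c).1).2
    (kummerEquiv_prod hn c hJ hu)).symm

/-- the same for the `TateData` attached to `K`.
[`LevelData.endCong_of_red`, `LevelData.red_gal`, as in `S34.endCong_unip`; push `red` through the
`Finsupp.sum` (`map_finsuppSum` / `Finsupp.sum`, `LinearMap.sum_apply`, `map_sum`, `map_zsmul`).] -/
theorem endCong_sum_gal (K : I.KummerData N) (hcrux : I.CruxAll N) {p : ℕ} (hp : p.Prime) (k : ℕ)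
    (c : GQ →₀ ℤ)
    (hJ : ∀ z : JZero N, (p ^ k) • z = 0 → (c.sum fun g m => m • (g • z)) = 0) :
    H.EndCong (p ^ k) (c.sum fun g m => m • (K.toLevelData hcrux p hp).toTateData.gal k g) 0 := by
  set D' := K.toLevelData hcrux p hp with hD'
  have hn : 0 < p ^ k := pow_pos hp.pos k
  refine D'.endCong_of_red k _ _ fun x => ?_
  have h1 := sum_act_eq_zero K hn c hJ x
  show D'.red k ((c.sum fun g m => m • D'.gal k g) x) = D'.red k ((0 : Module.End ℤ D'.Λ) x)
  rw [LinearMap.zero_apply, map_zero, Finsupp.sum, LinearMap.sum_apply, map_sum]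
  rw [Finsupp.sum] at h1
  refine Eq.trans (Finset.sum_congr rfl fun g _ => ?_) h1
  rw [LinearMap.smul_apply, map_zsmul, D'.red_gal]
  rfl

end Fermat.Agent.S32
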