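import Fermat.Agent.S32.Quot
import Fermat.Agent.S31.Apply
import Fermat.Agent.S31.Bridge
import Fermat.Agent.S34.Module

/-!
# S32 : a `ℤ[GQ]`-relation which holds on `Λ / p^k` (`k` large) holds on `V / I V`

`S31.transfer_level` with `s = c.support`, `x g = (c g : heckeAlgebra)`.
-/

set_option autoImplicit false

noncomputable section

namespace Fermat.Agent.S32

open Fermat.Agent.S19 IsLocalRing CuspForm

variable {p : ℕ} {N : ℕ} [NeZero N] {S : Finset ℕ}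
  {𝒪 : Type} [CommRing 𝒪] [IsDomain 𝒪] [IsDiscreteValuationRing 𝒪]
  [IsAdicComplete (IsLocalRing.maximalIdeal 𝒪) 𝒪]
  {θ : CuspForm.heckeAlgebra N 2 (↑S : Set ℕ) →+* IsLocalRing.ResidueField 𝒪}
  {T : Type} [CommRing T] [IsLocalRing T] [IsNoetherianRing T]
  [IsAdicComplete (IsLocalRing.maximalIdeal T) T] [Algebra 𝒪 T] [IsLocalHom (algebraMap 𝒪 T)]
  [Module.Finite 𝒪 T] [Module.Free 𝒪 T]

/-- [`y = mk v`; `gsum c (mk v) = mk (∑ g ∈ c.support, c g • ρ g v)`; `S31.transfer_level` with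
`x g := (c g : heckeAlgebra N 2 S)` (`map_intCast`, `Int.cast_smul_eq_zsmul`); `𝔪ⁿ V ⊆ I V`.] -/
theorem gsum_levelMod_of_module (hp : p.Prime) (hpS : p ∈ S)
    (hNS : ∀ q : ℕ, q.Prime → q ∣ N → q ∈ S)
    (H : CuspForm.HeckeGaloisRepDatum N (↑S : Set ℕ) 𝒪 θ T) (n k : ℕ)
    (M : S31.HeckeGaloisModule N (↑S : Set ℕ) p k)
    (hM : ∀ a : heckeAlgebra N 2 (↑S : Set ℕ), (∀ w : M.W, a • w = 0) →
      H.π a ∈ maximalIdeal T ^ n)
    (I : Ideal T) (hI : maximalIdeal T ^ n ≤ I) (c : GQ →₀ ℤ)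
    (hc : ∀ w : M.W, (c.sum fun g m => m • M.r g w) = 0) (y : LevelMod H.ρ I) :
    gsum c y = 0 := by
  obtain ⟨v, rfl⟩ := LevelMod.mk_surjective H.ρ I y
  have h1 := S31.transfer_level S31.frobeniusDensity hp hpS hNS H n k M hM c.support
    (fun g => ((c g : ℤ) : heckeAlgebra N 2 (↑S : Set ℕ)))
    (by
      intro w
      have := hc w
      rw [Finsupp.sum] at this
      rw [← this]
      refine Finset.sum_congr rfl fun g _ => ?_
      rw [Int.cast_smul_eq_zsmul]) v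
  have h2 : gsum c (LevelMod.mk H.ρ I v) =
      LevelMod.mk H.ρ I (∑ g ∈ c.support,
        H.π ((c g : ℤ) : heckeAlgebra N 2 (↑S : Set ℕ)) • H.ρ.ρ g v) := by
    rw [gsum, Finsupp.sum, map_sum]
    refine Finset.sum_congr rfl fun g _ => ?_
    rw [LevelMod.smul_mk, map_intCast, Int.cast_smul_eq_zsmul, map_zsmul]
  rw [h2, LevelMod.mk_eq_zero_iff]
  exact Submodule.smul_mono_left hI h1

/-- the same in terms of a `TateData` with faithful Hecke action.
[as in `S34.trace_det_mem`: `c₀` from `S31.exists_artinRees_bound`, `k := n + c₀`,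
`S34.exists_heckeGaloisModule_red` gives `M`, `φ`; `∑ c g • M.r g w = φ (∑ c g • D.gal k g) w = φ 0 w = 0`;
`hM` from `S31.faithful_mod`.] -/
theorem gsum_levelMod_of_tateData (hp : p.Prime) (hp𝒪 : (p : 𝒪) ∈ maximalIdeal 𝒪) (hpS : p ∈ S)
    (hNS : ∀ q : ℕ, q.Prime → q ∣ N → q ∈ S)
    (D : GR.H.TateData N p) (hinj : Function.Injective D.hecke)
    (H : CuspForm.HeckeGaloisRepDatum N (↑S : Set ℕ) 𝒪 θ T) (n : ℕ)
    (I : Ideal T) (hI : maximalIdeal T ^ n ≤ I) :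
    ∃ k : ℕ, ∀ c : GQ →₀ ℤ, GR.H.EndCong (p ^ k) (c.sum fun g m => m • D.gal k g) 0 →
      ∀ y : LevelMod H.ρ I, gsum c y = 0 := by
  classical
  let ι : heckeAlgebra N 2 (↑S : Set ℕ) →+* GR.H.HeckeFull N :=
    (Subalgebra.inclusion (heckeAlgebra_mono (Set.empty_subset (↑S : Set ℕ)))).toRingHom
  have hι : Function.Injective ι := Subalgebra.inclusion_injective _
  obtain ⟨c₀, hc₀⟩ := S31.exists_artinRees_bound (D.hecke.comp ι) (hinj.comp hι) p
  refine ⟨n + c₀, fun c hc y => ?_⟩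
  obtain ⟨M, φ, hr, -, hφ, hM⟩ := S34.exists_heckeGaloisModule_red (↑S : Set ℕ) hpS D (n + c₀)
  refine gsum_levelMod_of_module hp hpS hNS H n (n + c₀) M (fun a ha => ?_) I hI c (fun w => ?_) y
  · refine S31.faithful_mod hp hp𝒪 H n _ ?_
    obtain ⟨a', ha'⟩ := hc₀ (n + c₀) a (hM _ ha)
    rw [Nat.add_sub_cancel] at ha'
    exact ⟨1, a', fun h => hp.one_lt.ne' (Nat.dvd_one.mp h), by rw [one_smul]; exact ha'⟩
  · have h2 := LinearMap.congr_fun (hφ _ _ hc) w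
    rw [map_zero, LinearMap.zero_apply, Finsupp.sum, map_sum, LinearMap.sum_apply] at h2
    rw [Finsupp.sum, ← h2]
    refine Finset.sum_congr rfl fun g _ => ?_
    rw [map_zsmul, LinearMap.smul_apply, hr]

end Fermat.Agent.S32
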