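import Fermat.Agent.S32.Rel
import Fermat.Agent.S32.Transfer
import Fermat.Agent.S32.Dict
import Fermat.Agent.S19.H.Main
import Fermat.Agent.GR.I.Final
import Fermat.Agent.GR.I.CharTheoryMk
import Fermat.Agent.GR.D.Top.Main

/-!
# S32 from the export `S19Out` of project S19
-/

set_option autoImplicit false

noncomputable section

namespace Fermat.Agent.S32

open Fermat.Agent.S19 IsLocalRing CuspForm

variable {p : ℕ} {N : ℕ} [NeZero N] {S : Finset ℕ}
  {𝒪 : Type} [CommRing 𝒪] [IsDomain 𝒪] [IsDiscreteValuationRing 𝒪]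
  [IsAdicComplete (IsLocalRing.maximalIdeal 𝒪) 𝒪]
  {θ : CuspForm.heckeAlgebra N 2 (↑S : Set ℕ) →+* IsLocalRing.ResidueField 𝒪}
  {T : Type} [CommRing T] [IsLocalRing T] [IsNoetherianRing T]
  [IsAdicComplete (IsLocalRing.maximalIdeal T) T] [Algebra 𝒪 T] [IsLocalHom (algebraMap 𝒪 T)]
  [Module.Finite 𝒪 T] [Module.Free 𝒪 T]

/-- Theorem H for the class `HasPair`. -/
theorem HasPair.flatModel {A : ValuationSubring Qb} {ℓ : ℕ} [Fact ℓ.Prime]
    (hA : A.LiesOverPrime ℓ) {V : Type} [AddCommGroup V] [DistribMulAction GQ V] [Finite V]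
    (hfin : FinLevel V) (h : HasPair A V) : FlatModel ℓ V (fun σ x => σ • x) := by
  obtain ⟨W, _, _, hW, hfinW, e, he, hCH⟩ := h
  exact flatModel_of_pairing A hA hfin hfinW e he hCH

/-- `V / I V` satisfies the hypothesis of Theorem H. -/
theorem hasPair_levelMod {A : ValuationSubring Qb} (h19 : S19Out A N p)
    (hp : p.Prime) (hp𝒪 : (p : 𝒪) ∈ maximalIdeal 𝒪) (hpS : p ∈ S)
    (hNS : ∀ q : ℕ, q.Prime → q ∣ N → q ∈ S)
    (H : CuspForm.HeckeGaloisRepDatum N (↑S : Set ℕ) 𝒪 θ T) (I : Ideal T) [Finite (T ⧸ I)]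
    {n : ℕ} (hI : maximalIdeal T ^ n ≤ I) : HasPair A (LevelMod H.ρ I) := by
  let ι : GR.Qbar →+* ℂ := (IsAlgClosed.lift (R := ℚ) (S := GR.Qbar) (M := ℂ)).toRingHom
  have hcrux : GR.I.CruxAll N := GR.I.cruxAll_of_modelExists GR.D.Top.modelExists N
  let K : GR.I.KummerData N := (GR.I.charTheory N).toKummerData ι
  obtain ⟨k, hk⟩ := gsum_levelMod_of_tateData hp hp𝒪 hpS hNS
    (K.toLevelData hcrux p hp).toTateData (GR.B.heckeLam_injective N) H n I hI
  obtain ⟨V, _, _, j, hV, hsurj, hequiv, hpair⟩ := h19 k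
  have := finite_levelMod H.ρ I
  refine hpair.of_relations fun c hc y => hk c (endCong_sum_gal K hcrux hp k c fun z hz => ?_) y
  obtain ⟨x, rfl⟩ := hsurj z hz
  have h1 := congrArg j (hc x)
  rw [map_zero, gsum, map_finsuppSum] at h1
  rw [← h1]
  refine Finsupp.sum_congr fun g _ => ?_
  rw [map_zsmul, hequiv]

/-- **S32 in hypothesis form.** -/
theorem isFlatAt_of_s19Out [Finite (ResidueField 𝒪)] {A : ValuationSubring Qb}
    (hA : A.LiesOverPrime p) (h19 : S19Out A N p)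
    (hp : p.Prime) (hp𝒪 : (p : 𝒪) ∈ maximalIdeal 𝒪) (hpS : p ∈ S)
    (hNS : ∀ q : ℕ, q.Prime → q ∣ N → q ∈ S)
    (H : CuspForm.HeckeGaloisRepDatum N (↑S : Set ℕ) 𝒪 θ T) : H.ρ.IsFlatAt p := by
  have : Fact p.Prime := ⟨hp⟩
  refine isFlatAt_of_flatModel H.ρ p (finite_residueField H) fun I hI => ?_
  obtain ⟨n, hn⟩ := exists_pow_maximalIdeal_le I
  have := finite_levelMod H.ρ I
  exact (hasPair_levelMod h19 hp hp𝒪 hpS hNS H I hn).flatModel hA (finLevel_levelMod H.ρ I hn)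

end Fermat.Agent.S32
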