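import Fermat.Agent.S32.Defs
import Fermat.Agent.S19.A.Top

/-!
# S32 : the export `S19Out` of project S19

`J₀(N)[n]` satisfies the hypothesis of Theorem H for EVERY valuation ring `A` of `Q̄` over `ℓ ∤ N`
(same proof as `S19.flatModel_tors`).
-/

set_option autoImplicit false
set_option synthInstance.maxHeartbeats 400000

noncomputable section

namespace Fermat.Agent.S32

open ModularCurve AlgebraicCurve Fermat.Agent.GR Fermat.Agent.S19

theorem hasPair_tors (N : ℕ) [NeZero N] (ℓ : ℕ) [hℓ : Fact ℓ.Prime] (hℓN : ¬ ℓ ∣ N)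
    (A : ValuationSubring Qb) (hA : A.LiesOverPrime ℓ) (n : ℕ) [NeZero n] :
    HasPair A (Tors N (n : ℤ)) := by
  obtain ⟨N', H, hN'0, hNN', ⟨k, hk⟩, hM⟩ := D.Top.modelExists N ℓ hℓ.out hℓN A hA
  have : NeZero N' := ⟨hN'0⟩
  have hfin : (FF Qb N).relfinrank (FF Qb N') ≠ 0 := by
    rw [hk]; exact pow_ne_zero _ hℓ.out.ne_zero
  have hn : n ≠ 0 := NeZero.ne n
  obtain ⟨π, -, hadd, hequiv, hinj⟩ := exists_upMap (n := n) hNN' hfin
  refine ⟨Tors N' (n : ℤ), inferInstance, inferInstance, finite_tors N' n, finLevel_tors N' n,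
    fun x y => W.weil n (y : JZero N') (π x : JZero N'), ⟨?_, ?_, ?_, ?_, ?_⟩, ?_⟩
  · intro x x' w
    rw [hadd]
    exact W.weil_add_right hn _ (π x).nsmul_eq_zero (π x').nsmul_eq_zero
  · intro x w w'
    exact W.weil_add_left hn w.nsmul_eq_zero w'.nsmul_eq_zero _
  · intro x w
    exact W.weil_ne_zero hn _ _
  · intro σ x w
    rw [hequiv]
    exact W.weil_smul hn (S17.WMW.gal N' σ) _ _
  · intro x hx
    apply hinj
    apply Subtype.ext
    exact weil_nondeg N' (NeZero.pos n) (π x).nsmul_eq_zero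
      (fun y hy => hx (Tors.mk y hy))
  · intro x
    exact geo A ℓ hA N' H hM n (π x).nsmul_eq_zero

theorem s19Out (N : ℕ) [NeZero N] (p : ℕ) (hp : p.Prime) (hpN : ¬ p ∣ N)
    (A : ValuationSubring Qb) (hA : A.LiesOverPrime p) : S19Out A N p := by
  intro k
  have : Fact p.Prime := ⟨hp⟩
  have : NeZero (p ^ k) := ⟨pow_ne_zero k hp.ne_zero⟩
  refine ⟨Tors N ((p ^ k : ℕ) : ℤ), inferInstance, inferInstance,
    (Submodule.torsionBy ℤ (JZero N) ((p ^ k : ℕ) : ℤ)).subtype.toAddMonoidHom,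
    finite_tors N (p ^ k), fun z hz => ⟨Tors.mk z hz, rfl⟩, fun σ x => rfl,
    hasPair_tors N p hpN A hA (p ^ k)⟩

end Fermat.Agent.S32
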