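import Fermat.Agent.S32.Defs

/-!
# S32 : characters of finite abelian groups with values in `Qb`

* `IsPairing.map_zero_left/right`, `IsPairing.map_neg_left`, `IsPairing.map_sub_left`: formal.
* `exists_eq_pairing`: a pairing which is non degenerate on the left gives ALL characters of `V`.
  [`S19.span_pairing_eq_top`: the functions `e · w` span `V → Qb`; characters are linearly
  independent (`linearIndependent_monoidHom (Multiplicative V) Qb`); if `χ` were different from
  all `e · w` then `χ ∉ span {e · w}` (`LinearIndependent.notMem_span_image`).]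
* `exists_char_sep`: characters separate a point from a subgroup.
  [`CommGroup.exists_apply_ne_one_of_hasEnoughRootsOfUnity (Multiplicative (P ⧸ Z)) Qb`; the instance
  `HasEnoughRootsOfUnity Qb n` needs `NeZero (n : Qb)`, `n = Monoid.exponent _ ≠ 0` for a finite group.]
-/

set_option autoImplicit false

noncomputable section

namespace Fermat.Agent.S32

open Fermat.Agent.S19

section Formal

variable {V W : Type} [AddCommGroup V] [AddCommGroup W] [DistribMulAction GQ V]
  [DistribMulAction GQ W] {e : V → W → Qb}

theorem IsPairing.map_zero_left (he : IsPairing e) (w : W) : e 0 w = 1 := by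
  have := he.add_left 0 0 w
  rw [add_zero] at this
  exact (mul_eq_left₀ (he.ne_zero 0 w)).mp this.symm

theorem IsPairing.map_zero_right (he : IsPairing e) (x : V) : e x 0 = 1 := by
  have := he.add_right x 0 0
  rw [add_zero] at this
  exact (mul_eq_left₀ (he.ne_zero x 0)).mp this.symm

theorem IsPairing.map_neg_left (he : IsPairing e) (x : V) (w : W) : e (-x) w = (e x w)⁻¹ := by
  apply eq_inv_of_mul_eq_one_left
  rw [← he.add_left, neg_add_cancel, IsPairing.map_zero_left he]

theorem IsPairing.map_neg_right (he : IsPairing e) (x : V) (w : W) : e x (-w) = (e x w)⁻¹ := by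
  apply eq_inv_of_mul_eq_one_left
  rw [← he.add_right, neg_add_cancel, IsPairing.map_zero_right he]

theorem IsPairing.map_sub_left (he : IsPairing e) (x y : V) (w : W) :
    e (x - y) w = e x w / e y w := by
  rw [sub_eq_add_neg, he.add_left, IsPairing.map_neg_left he, div_eq_mul_inv]

/-- every character of `V` is of the form `e · w`. -/
theorem exists_eq_pairing [Finite V] (he : IsPairing e) (χ : V → Qb)
    (hadd : ∀ x y, χ (x + y) = χ x * χ y) (h0 : ∀ x, χ x ≠ 0) : ∃ w, ∀ x, χ x = e x w := by
  classical
  have := Fintype.ofFinite V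
  have hχ0 : χ 0 = 1 := by
    have := hadd 0 0
    rw [add_zero] at this
    exact (mul_eq_left₀ (h0 0)).mp this.symm
  let χ' : Multiplicative V →* Qb :=
    { toFun := fun x => χ x.toAdd
      map_one' := hχ0
      map_mul' := fun x y => hadd _ _ }
  let ε : W → (Multiplicative V →* Qb) := fun w =>
    { toFun := fun x => e x.toAdd w
      map_one' := IsPairing.map_zero_left he w
      map_mul' := fun x y => he.add_left _ _ w }
  by_contra hcon
  have hnot : χ' ∉ Set.range ε := by
    rintro ⟨w, hw⟩
    exact hcon ⟨w, fun x => (DFunLike.congr_fun hw (Multiplicative.ofAdd x)).symm⟩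
  have h1 := (linearIndependent_monoidHom (Multiplicative V) Qb).notMem_span_image hnot
  apply h1
  have h2 : ((fun f : Multiplicative V →* Qb => (f : Multiplicative V → Qb)) '' Set.range ε) =
      Set.range fun w : W => fun x : V => e x w := by
    rw [← Set.range_comp]
    rfl
  rw [h2]
  have h3 := span_pairing_eq_top e he
  have h4 : (fun x : V => χ x) ∈ Submodule.span Qb (Set.range fun w : W => fun x : V => e x w) := by
    rw [h3]
    exact Submodule.mem_top
  exact h4

end Formal

/-- characters separate a point from a subgroup. -/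
theorem exists_char_sep {P : Type} [AddCommGroup P] [Finite P] (Z : AddSubgroup P) {x : P}
    (hx : x ∉ Z) : ∃ χ : P → Qb, (∀ a b, χ (a + b) = χ a * χ b) ∧ (∀ a, χ a ≠ 0) ∧
      (∀ z ∈ Z, χ z = 1) ∧ χ x ≠ 1 := by
  have hn : NeZero (Monoid.exponent (Multiplicative (P ⧸ Z))) :=
    ⟨Monoid.exponent_ne_zero_of_finite⟩
  have ha : Multiplicative.ofAdd (QuotientAddGroup.mk x : P ⧸ Z) ≠ 1 := by
    intro h
    apply hx
    have h1 : (QuotientAddGroup.mk x : P ⧸ Z) = 0 := h
    exact (QuotientAddGroup.eq_zero_iff x).1 h1
  obtain ⟨φ, hφ⟩ := CommGroup.exists_apply_ne_one_of_hasEnoughRootsOfUnity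
    (Multiplicative (P ⧸ Z)) Qb ha
  refine ⟨fun a => (φ (Multiplicative.ofAdd (QuotientAddGroup.mk a : P ⧸ Z)) : Qb), ?_, ?_, ?_, ?_⟩
  · intro a b
    beta_reduce
    rw [QuotientAddGroup.mk_add, ofAdd_add, map_mul, Units.val_mul]
  · intro a
    exact Units.ne_zero _
  · intro z hz
    beta_reduce
    rw [(QuotientAddGroup.eq_zero_iff z).2 hz, ofAdd_zero, map_one, Units.val_one]
  · intro h
    exact hφ (Units.val_eq_one.1 h)

end Fermat.Agent.S32
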