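import Fermat.Agent.S32.Defs

/-!
# S32 : `MD A X` is a ring of functions, functorial in `X`

`ED A U X` contains `1`, is stable under products and under pull back along equivariant maps; pass to
the `A`-span by `Submodule.span_induction` (twice for the product).
-/

set_option autoImplicit false

noncomputable section

namespace Fermat.Agent.S32

open Fermat.Agent.S19

variable {A : ValuationSubring Qb} {X Y : Type} [MulAction GQ X] [MulAction GQ Y]

theorem one_mem_MD : (1 : X → Qb) ∈ MD A X := by
  refine Submodule.subset_span ⟨fun _ => A.one_mem, fun σ _ x => ?_⟩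
  simp

theorem mul_mem_MD {f g : X → Qb} (hf : f ∈ MD A X) (hg : g ∈ MD A X) : f * g ∈ MD A X := by
  unfold MD at hf hg ⊢
  induction hf using Submodule.span_induction with
  | mem a ha =>
    induction hg using Submodule.span_induction with
    | mem b hb =>
      refine Submodule.subset_span ⟨fun x => A.mul_mem _ _ (ha.1 x) (hb.1 x), fun σ hσ x => ?_⟩
      rw [Pi.mul_apply, Pi.mul_apply, ha.2 σ hσ, hb.2 σ hσ, map_mul]
    | zero => rw [mul_zero]; exact Submodule.zero_mem _
    | add b b' _ _ hb hb' => rw [mul_add]; exact Submodule.add_mem _ hb hb'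
    | smul c b _ hb => rw [mul_smul_comm]; exact Submodule.smul_mem _ c hb
  | zero => rw [zero_mul]; exact Submodule.zero_mem _
  | add a a' _ _ ha ha' => rw [add_mul]; exact Submodule.add_mem _ ha ha'
  | smul c a _ ha => rw [smul_mul_assoc]; exact Submodule.smul_mem _ c ha

theorem prod_mem_MD {ι : Type*} (s : Finset ι) (f : ι → X → Qb) (h : ∀ i ∈ s, f i ∈ MD A X) :
    ∏ i ∈ s, f i ∈ MD A X := by
  classical
  induction s using Finset.induction_on with
  | empty => rw [Finset.prod_empty]; exact one_mem_MD
  | insert i s hi ih =>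
    rw [Finset.prod_insert hi]
    exact mul_mem_MD (h i (Finset.mem_insert_self i s))
      (ih fun j hj => h j (Finset.mem_insert_of_mem hj))

/-- pull back along an equivariant map. -/
theorem comp_mem_MD (φ : Y → X) (hφ : ∀ (σ : GQ) (y : Y), φ (σ • y) = σ • φ y) {f : X → Qb}
    (hf : f ∈ MD A X) : f ∘ φ ∈ MD A Y := by
  unfold MD at hf ⊢
  induction hf using Submodule.span_induction with
  | mem a ha =>
    refine Submodule.subset_span ⟨fun y => ha.1 (φ y), fun σ hσ y => ?_⟩
    rw [Function.comp_apply, Function.comp_apply, hφ, ha.2 σ hσ]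
  | zero => exact Submodule.zero_mem _
  | add a a' _ _ ha ha' => exact Submodule.add_mem _ ha ha'
  | smul c a _ ha => exact Submodule.smul_mem _ c ha

end Fermat.Agent.S32
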