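import Fermat.Agent.S32.MDRing
import Fermat.Agent.S32.Char

/-!
# S32 : `HasPair` passes to finite powers

`(W, e)` for `V`; for `ι → V` take `ι → W` (pointwise action) and `e' x w := ∏ i, e (x i) (w i)`.
Left non degenerate: test against `Pi.single i w₀` (`e x 0 = 1`).  `e' x = ∏ i, (e (x i)) ∘ (· i) ∈ MD`
(`prod_mem_MD`, `comp_mem_MD`).  `FinLevel (ι → W)`: the same `L`.
-/

set_option autoImplicit false

noncomputable section

namespace Fermat.Agent.S32

open Fermat.Agent.S19

variable {A : ValuationSubring Qb}

theorem HasPair.pi {ι V : Type} [Finite ι] [AddCommGroup V] [DistribMulAction GQ V]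
    (h : HasPair A V) : HasPair A (ι → V) := by
  classical
  obtain ⟨W, iW, iA, hfin, ⟨L, hL, hfix⟩, e, he, hMD⟩ := h
  cases nonempty_fintype ι
  refine ⟨ι → W, inferInstance, inferInstance, inferInstance,
    ⟨L, hL, fun σ hσ x => funext fun i => hfix σ hσ (x i)⟩,
    fun x w => ∏ i, e (x i) (w i), ?_, ?_⟩
  · refine ⟨?_, ?_, ?_, ?_, ?_⟩
    · intro x x' w
      simp only [Pi.add_apply, he.add_left, Finset.prod_mul_distrib]
    · intro x w w'
      simp only [Pi.add_apply, he.add_right, Finset.prod_mul_distrib]
    · intro x w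
      exact Finset.prod_ne_zero_iff.2 fun i _ => he.ne_zero _ _
    · intro σ x w
      simp only [Pi.smul_apply, he.equiv, map_prod]
    · intro x hx
      funext i
      apply he.nondeg
      intro w₀
      have := hx (Pi.single i w₀)
      rw [Finset.prod_eq_single i] at this
      · simpa using this
      · intro j _ hj
        rw [Pi.single_eq_of_ne hj]
        exact IsPairing.map_zero_right he _
      · intro h
        exact absurd (Finset.mem_univ i) h
  · intro x
    have : (fun w : ι → W => ∏ i, e (x i) (w i)) =
        ∏ i, (e (x i)) ∘ (fun w : ι → W => w i) := by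
      funext w
      simp [Finset.prod_apply]
    show (fun w : ι → W => ∏ i, e (x i) (w i)) ∈ MD A (ι → W)
    rw [this]
    exact prod_mem_MD _ _ fun i _ => comp_mem_MD _ (fun σ y => rfl) (hMD (x i))

end Fermat.Agent.S32
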