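import Fermat.Agent.S31x.Transfer
import Fermat.Prelude.Def_GaloisRep_Flat

/-!
# S32, part (b): `V / I V` is a `G_ℚ`-subquotient of a power of a faithful Hecke-Galois module

`M` a Hecke-Galois module which is faithful modulo `𝔪ⁿ`, `𝔪ⁿ ≤ I`.  Put `Q = V / I V`,
`ι = Q × M.W`, `X = (Q × 𝕋 × G_ℚ) →₀ ℤ` and
`Φ : X → (ι → M.W)`, `(u, a, g) ↦ ((u', w) ↦ if u' = u then a • g w else 0)`,
`Ψ : X → Q`, `(u, a, g) ↦ π a • g u`.  By the transfer lemma `ker Φ ≤ ker Ψ`, so `Ψ` induces a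
surjective equivariant homomorphism `range Φ → Q`.
-/

set_option autoImplicit false

namespace Fermat.Agent.S32

open CuspForm Fermat.Agent.S31

variable {p : ℕ} {N : ℕ} [NeZero N] {S : Finset ℕ}
  {𝒪 : Type} [CommRing 𝒪] [IsDomain 𝒪] [IsDiscreteValuationRing 𝒪]
  [IsAdicComplete (IsLocalRing.maximalIdeal 𝒪) 𝒪]
  {θ : CuspForm.heckeAlgebra N 2 (↑S : Set ℕ) →+* IsLocalRing.ResidueField 𝒪}
  {T : Type} [CommRing T] [IsLocalRing T] [IsNoetherianRing T]
  [IsAdicComplete (IsLocalRing.maximalIdeal T) T] [Algebra 𝒪 T] [IsLocalHom (algebraMap 𝒪 T)]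
  [Module.Finite 𝒪 T] [Module.Free 𝒪 T]

section abs

variable {J A B : Type*} [AddCommGroup A] [AddCommGroup B]

/-- the additive map `(J →₀ ℤ) → A` attached to a family. -/
noncomputable def Subquot_lin (F : J → A) : (J →₀ ℤ) →+ A :=
  Finsupp.liftAddHom (fun j => (zmultiplesHom A) (F j))

theorem Subquot_lin_single (F : J → A) (j : J) (c : ℤ) :
    Subquot_lin F (Finsupp.single j c) = c • F j := by
  simp [Subquot_lin]

theorem Subquot_lin_apply (F : J → A) (x : J →₀ ℤ) :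
    Subquot_lin F x = ∑ j ∈ x.support, x j • F j := by
  simp [Subquot_lin, Finsupp.sum]

/-- a homomorphism on the range of `Φ` induced by `Ψ` when `ker Φ ≤ ker Ψ`. -/
theorem Subquot_exists_hom {X : Type*} [AddCommGroup X] (Φ : X →+ A) (Ψ : X →+ B)
    (h : ∀ x, Φ x = 0 → Ψ x = 0) :
    ∃ f : Φ.range →+ B, ∀ x : X, f ⟨Φ x, x, rfl⟩ = Ψ x := by
  let e := QuotientAddGroup.quotientKerEquivRange Φ
  let Ψ' : X ⧸ Φ.ker →+ B := QuotientAddGroup.lift Φ.ker Ψ (fun x hx => h x hx)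
  refine ⟨Ψ'.comp e.symm.toAddMonoidHom, fun x => ?_⟩
  have h1 : e.symm ⟨Φ x, x, rfl⟩ = (x : X ⧸ Φ.ker) := by
    rw [AddEquiv.symm_apply_eq]
    rfl
  show Ψ' (e.symm ⟨Φ x, x, rfl⟩) = Ψ x
  rw [h1]
  rfl

end abs

theorem levelAction_mk (H : CuspForm.HeckeGaloisRepDatum N (↑S : Set ℕ) 𝒪 θ T) (I : Ideal T)
    (σ : GQ) (v : H.ρ.V) :
    H.ρ.levelAction I σ (Submodule.Quotient.mk v) = Submodule.Quotient.mk (H.ρ.ρ σ v) := rfl

/-- **`V / I V` is a subquotient of a power of `M.W`.** -/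
theorem exists_subquotient_of_module (hdens : FrobeniusDensity) (hp : p.Prime) (hpS : p ∈ S)
    (hNS : ∀ q : ℕ, q.Prime → q ∣ N → q ∈ S)
    (H : CuspForm.HeckeGaloisRepDatum N (↑S : Set ℕ) 𝒪 θ T) (n k : ℕ)
    (M : HeckeGaloisModule N (↑S : Set ℕ) p k) [Finite M.W]
    (hM : ∀ a : heckeAlgebra N 2 (↑S : Set ℕ), (∀ w : M.W, a • w = 0) →
      H.π a ∈ IsLocalRing.maximalIdeal T ^ n)
    (I : Ideal T) (hI : IsLocalRing.maximalIdeal T ^ n ≤ I)
    [Finite (H.ρ.V ⧸ (I • (⊤ : Submodule T H.ρ.V)))] :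
    ∃ (ι : Type) (_ : Fintype ι) (Y : AddSubgroup (ι → M.W))
      (f : Y →+ (H.ρ.V ⧸ (I • (⊤ : Submodule T H.ρ.V)))),
      (∀ σ : GQ, ∀ y ∈ Y, (fun i => M.r σ (y i)) ∈ Y) ∧ Function.Surjective f ∧
      ∀ (σ : GQ) (y y' : Y), (∀ i, (y' : ι → M.W) i = M.r σ ((y : ι → M.W) i)) →
        f y' = H.ρ.levelAction I σ (f y) := by
  classical
  let Q := H.ρ.V ⧸ (I • (⊤ : Submodule T H.ρ.V))
  haveI : Fintype Q := Fintype.ofFinite Q
  let 𝕋 := heckeAlgebra N 2 (↑S : Set ℕ)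
  let J := Q × 𝕋 × GQ
  let F : J → (Q × M.W → M.W) := fun j i => if i.1 = j.1 then j.2.1 • M.r j.2.2 i.2 else 0
  let G : J → Q := fun j => H.π j.2.1 • H.ρ.levelAction I j.2.2 j.1
  let Φ := Subquot_lin F
  let Ψ := Subquot_lin G
  have hker : ∀ x, Φ x = 0 → Ψ x = 0 := by
    intro x hx
    -- the part of the relation at `u`
    have h1 : ∀ (u : Q) (w : M.W),
        ∑ j ∈ x.support with j.1 = u, ((x j : 𝕋) * j.2.1) • M.r j.2.2 w = 0 := by
      intro u w
      have h2 : Φ x (u, w) = 0 := by rw [hx]; rfl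
      rw [Subquot_lin_apply, Finset.sum_apply] at h2
      rw [Finset.sum_filter]
      refine Eq.trans (Finset.sum_congr rfl fun j _ => ?_) h2
      by_cases hj : j.1 = u
      · simp [F, hj, mul_smul, Int.cast_smul_eq_zsmul]
      · have hj' : ¬ u = j.1 := fun h => hj h.symm
        simp [F, hj, hj']
    have h3 : ∀ u : Q, ∑ j ∈ x.support with j.1 = u, x j • G j = 0 := by
      intro u
      obtain ⟨v, rfl⟩ := Submodule.Quotient.mk_surjective _ u
      have h4 := transfer_level_index hdens hp hpS hNS H n k M hM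
        (x.support.filter fun j => j.1 = Submodule.Quotient.mk v)
        (fun j => (x j : 𝕋) * j.2.1) (fun j => j.2.2) (h1 _) v
      have h5 : ∑ j ∈ x.support with j.1 = Submodule.Quotient.mk v,
          H.π ((x j : 𝕋) * j.2.1) • H.ρ.ρ j.2.2 v ∈ I • (⊤ : Submodule T H.ρ.V) :=
        Submodule.smul_mono_left hI h4
      have h6 : (I • (⊤ : Submodule T H.ρ.V)).mkQ (∑ j ∈ x.support with
          j.1 = Submodule.Quotient.mk v, H.π ((x j : 𝕋) * j.2.1) • H.ρ.ρ j.2.2 v) = 0 :=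
        (Submodule.Quotient.mk_eq_zero _).mpr h5
      rw [map_sum] at h6
      rw [← h6]
      refine Finset.sum_congr rfl fun j hj => ?_
      have hj1 : j.1 = Submodule.Quotient.mk v := (Finset.mem_filter.mp hj).2
      simp only [G]
      rw [hj1, levelAction_mk, map_mul, map_intCast, mul_smul, Submodule.mkQ_apply,
        Submodule.Quotient.mk_smul, Submodule.Quotient.mk_smul, Int.cast_smul_eq_zsmul]
    rw [Subquot_lin_apply, ← Finset.sum_fiberwise_of_maps_to (g := fun j : J => j.1)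
      (t := (Finset.univ : Finset Q)) (fun _ _ => Finset.mem_univ _)]
    exact Finset.sum_eq_zero fun u _ => h3 u
  obtain ⟨f, hf⟩ := Subquot_exists_hom Φ Ψ hker
  -- the action of `σ`
  let Sg : GQ → (J →₀ ℤ) →+ (J →₀ ℤ) := fun σ =>
    Finsupp.mapDomain.addMonoidHom (fun j : J => (j.1, j.2.1, σ * j.2.2))
  have hΦσ : ∀ (σ : GQ) (x : J →₀ ℤ) (i : Q × M.W), Φ (Sg σ x) i = M.r σ (Φ x i) := by
    intro σ x i
    induction x using Finsupp.induction_linear with
    | zero => simp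
    | add x y hx hy => rw [map_add, map_add, map_add, Pi.add_apply, Pi.add_apply, hx, hy, map_add]
    | single j c =>
      have e1 : Sg σ (Finsupp.single j c) = Finsupp.single (j.1, j.2.1, σ * j.2.2) c := by
        simp [Sg]
      rw [e1, Subquot_lin_single, Subquot_lin_single]
      by_cases hj : i.1 = j.1
      · simp [F, hj]
      · simp [F, hj]
  have hΨσ : ∀ (σ : GQ) (x : J →₀ ℤ), Ψ (Sg σ x) = H.ρ.levelAction I σ (Ψ x) := by
    intro σ x
    induction x using Finsupp.induction_linear with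
    | zero => simp
    | add x y hx hy => rw [map_add, map_add, map_add, hx, hy, map_add]
    | single j c =>
      have e1 : Sg σ (Finsupp.single j c) = Finsupp.single (j.1, j.2.1, σ * j.2.2) c := by
        simp [Sg]
      rw [e1, Subquot_lin_single, Subquot_lin_single, map_zsmul]
      congr 1
      obtain ⟨v, hv⟩ := Submodule.Quotient.mk_surjective _ j.1
      simp only [G]
      rw [← hv, levelAction_mk, levelAction_mk, map_smul, levelAction_mk, map_mul,
        Module.End.mul_apply]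
  refine ⟨Q × M.W, Fintype.ofFinite _, Φ.range, f, ?_, ?_, ?_⟩
  · rintro σ _ ⟨x, rfl⟩
    exact ⟨Sg σ x, funext fun i => hΦσ σ x i⟩
  · intro u
    refine ⟨⟨Φ (Finsupp.single (u, 1, 1) 1), _, rfl⟩, ?_⟩
    rw [hf, Subquot_lin_single]
    obtain ⟨v, rfl⟩ := Submodule.Quotient.mk_surjective _ u
    simp only [G]
    rw [one_smul, map_one, one_smul, levelAction_mk, map_one, Module.End.one_apply]
  · rintro σ ⟨_, x, rfl⟩ y' hy'
    have e : y' = ⟨Φ (Sg σ x), _, rfl⟩ := by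
      apply Subtype.ext
      funext i
      rw [hy' i]
      exact (hΦσ σ x i).symm
    rw [e, hf, hf, hΨσ]

omit [IsNoetherianRing T] [IsAdicComplete (IsLocalRing.maximalIdeal T) T] in
/-- an ideal of finite index contains a power of the maximal ideal. -/
theorem exists_pow_maximalIdeal_le (I : Ideal T) [Finite (T ⧸ I)] :
    ∃ n : ℕ, IsLocalRing.maximalIdeal T ^ n ≤ I := by
  have h1 : (IsLocalRing.maximalIdeal T).map (Ideal.Quotient.mk I) ≤
      Ideal.jacobson (⊥ : Ideal (T ⧸ I)) := by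
    refine le_sInf ?_
    rintro K ⟨-, hK⟩
    have h2 : (K.comap (Ideal.Quotient.mk I)).IsMaximal :=
      Ideal.comap_isMaximal_of_surjective _ Ideal.Quotient.mk_surjective
    rw [← IsLocalRing.eq_maximalIdeal h2]
    exact Ideal.map_comap_le
  obtain ⟨n, hn⟩ := IsArtinianRing.isNilpotent_jacobson_bot (R := T ⧸ I)
  refine ⟨n, ?_⟩
  have h3 : ((IsLocalRing.maximalIdeal T) ^ n).map (Ideal.Quotient.mk I) = ⊥ := by
    rw [Ideal.map_pow, eq_bot_iff, ← Ideal.zero_eq_bot, ← hn]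
    exact Ideal.pow_right_mono h1 n
  rw [Ideal.map_eq_bot_iff_le_ker, Ideal.mk_ker] at h3
  exact h3

omit [IsNoetherianRing T] [IsAdicComplete (IsLocalRing.maximalIdeal T) T] in
theorem finite_quotient_smul_top (V : Type*) [AddCommGroup V] [Module T V] [Module.Finite T V]
    (I : Ideal T) [Finite (T ⧸ I)] : Finite (V ⧸ (I • (⊤ : Submodule T V))) := by
  have : Module.Finite (T ⧸ I) (V ⧸ (I • (⊤ : Submodule T V))) :=
    Module.Finite.of_restrictScalars_finite T _ _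
  exact Module.finite_of_finite (T ⧸ I)

/-- the residue field of `T` is finite. -/
theorem finite_residueField [Finite (IsLocalRing.ResidueField 𝒪)]
    (H : CuspForm.HeckeGaloisRepDatum N (↑S : Set ℕ) 𝒪 θ T) :
    Finite (IsLocalRing.ResidueField T) := by
  have hsurj : Function.Surjective (IsLocalRing.ResidueField.map (algebraMap 𝒪 T)) := by
    intro y
    obtain ⟨x, hx⟩ := H.residue_surjective y
    exact ⟨IsLocalRing.residue 𝒪 x, by rw [IsLocalRing.ResidueField.map_residue]; exact hx⟩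
  exact Finite.of_surjective _ hsurj

/-- **`V / I V` is a subquotient of a power of one member of an asymptotically faithful family of
finite Hecke-Galois modules.** -/
theorem exists_subquotient (hdens : FrobeniusDensity) (hp : p.Prime)
    (hp𝒪 : (p : 𝒪) ∈ IsLocalRing.maximalIdeal 𝒪) (hpS : p ∈ S)
    (hNS : ∀ q : ℕ, q.Prime → q ∣ N → q ∈ S)
    (H : CuspForm.HeckeGaloisRepDatum N (↑S : Set ℕ) 𝒪 θ T)
    (M : (k : ℕ) → HeckeGaloisModule N (↑S : Set ℕ) p k) (hfin : ∀ k, Finite (M k).W) (c₀ : ℕ)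
    (hfaith : ∀ (k : ℕ) (a : heckeAlgebra N 2 (↑S : Set ℕ)), (∀ w : (M k).W, a • w = 0) →
      ∃ (c : ℕ) (a' : heckeAlgebra N 2 (↑S : Set ℕ)), ¬ p ∣ c ∧ c • a = (p ^ (k - c₀) : ℕ) • a')
    (I : Ideal T) [Finite (T ⧸ I)] :
    ∃ (k : ℕ) (ι : Type) (_ : Fintype ι) (Y : AddSubgroup (ι → (M k).W))
      (f : Y →+ (H.ρ.V ⧸ (I • (⊤ : Submodule T H.ρ.V)))),
      (∀ σ : GQ, ∀ y ∈ Y, (fun i => (M k).r σ (y i)) ∈ Y) ∧ Function.Surjective f ∧
      ∀ (σ : GQ) (y y' : Y), (∀ i, (y' : ι → (M k).W) i = (M k).r σ ((y : ι → (M k).W) i)) →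
        f y' = H.ρ.levelAction I σ (f y) := by
  obtain ⟨n, hn⟩ := exists_pow_maximalIdeal_le I
  have := hfin (n + c₀)
  have := finite_quotient_smul_top H.ρ.V I
  refine ⟨n + c₀, exists_subquotient_of_module hdens hp hpS hNS H n (n + c₀) (M (n + c₀)) ?_ I hn⟩
  intro a ha
  refine faithful_mod hp hp𝒪 H n a ?_
  have h1 := hfaith (n + c₀) a ha
  rwa [Nat.add_sub_cancel] at h1

end Fermat.Agent.S32
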