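import Fermat.Agent.S32.Defs
import Fermat.Agent.S32.Subquot

/-!
# S32 : the `GQ`-module `V / I V` of an adic Galois representation
-/

set_option autoImplicit false

noncomputable section

namespace Fermat.Agent.S32

open Fermat.Agent.S19 IsLocalRing

variable {T : Type} [CommRing T] [IsLocalRing T]

/-- the `GQ`-module `V / I V`. -/
def LevelMod (ρ : GaloisRepAdic T) (I : Ideal T) : Type :=
  ρ.V ⧸ (I • (⊤ : Submodule T ρ.V))

instance (ρ : GaloisRepAdic T) (I : Ideal T) : AddCommGroup (LevelMod ρ I) :=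
  inferInstanceAs (AddCommGroup (ρ.V ⧸ (I • (⊤ : Submodule T ρ.V))))

/-- the projection `V → V / I V`. -/
def LevelMod.mk (ρ : GaloisRepAdic T) (I : Ideal T) : ρ.V →+ LevelMod ρ I :=
  (Submodule.mkQ (I • (⊤ : Submodule T ρ.V))).toAddMonoidHom

theorem LevelMod.mk_surjective (ρ : GaloisRepAdic T) (I : Ideal T) :
    Function.Surjective (LevelMod.mk ρ I) :=
  Submodule.mkQ_surjective _

theorem LevelMod.mk_eq_zero_iff (ρ : GaloisRepAdic T) (I : Ideal T) (v : ρ.V) :
    LevelMod.mk ρ I v = 0 ↔ v ∈ I • (⊤ : Submodule T ρ.V) :=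
  Submodule.Quotient.mk_eq_zero _

instance (ρ : GaloisRepAdic T) (I : Ideal T) : DistribMulAction GQ (LevelMod ρ I) where
  smul σ x := ρ.levelAction I σ x
  one_smul x := by
    obtain ⟨v, rfl⟩ := LevelMod.mk_surjective ρ I x
    show ρ.levelAction I 1 (Submodule.Quotient.mk v) = Submodule.Quotient.mk v
    rw [GaloisRepAdic.levelAction, Submodule.mapQ_apply, map_one, Module.End.one_apply]
  mul_smul σ τ x := by
    obtain ⟨v, rfl⟩ := LevelMod.mk_surjective ρ I x
    show ρ.levelAction I (σ * τ) (Submodule.Quotient.mk v) =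
      ρ.levelAction I σ (ρ.levelAction I τ (Submodule.Quotient.mk v))
    simp only [GaloisRepAdic.levelAction, Submodule.mapQ_apply, map_mul, Module.End.mul_apply]
  smul_zero σ := map_zero (ρ.levelAction I σ)
  smul_add σ := map_add (ρ.levelAction I σ)

theorem LevelMod.smul_def (ρ : GaloisRepAdic T) (I : Ideal T) (σ : GQ) (x : LevelMod ρ I) :
    σ • x = ρ.levelAction I σ x := rfl

theorem LevelMod.smul_mk (ρ : GaloisRepAdic T) (I : Ideal T) (σ : GQ) (v : ρ.V) :
    σ • LevelMod.mk ρ I v = LevelMod.mk ρ I (ρ.ρ σ v) := rfl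

/-- the definition of `IsFlatAt` in terms of `S19.FlatModel`. -/
theorem isFlatAt_of_flatModel (ρ : GaloisRepAdic T) (p : ℕ) (hres : Finite (ResidueField T))
    (h : ∀ I : Ideal T, Finite (T ⧸ I) → FlatModel p (LevelMod ρ I) (fun σ x => σ • x)) :
    ρ.IsFlatAt p :=
  ⟨hres, fun I hI => h I hI⟩

/-- `V / I V` is a finitely generated module over the finite ring `T / I`. -/
theorem finite_levelMod (ρ : GaloisRepAdic T) (I : Ideal T) [Finite (T ⧸ I)] :
    Finite (LevelMod ρ I) :=
  finite_quotient_smul_top ρ.V I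

theorem finLevel_levelMod (ρ : GaloisRepAdic T) (I : Ideal T) {n : ℕ}
    (h : maximalIdeal T ^ n ≤ I) : FinLevel (LevelMod ρ I) := by
  obtain ⟨L, hL, hLσ⟩ := ρ.isAdicContinuous n
  refine ⟨L, hL, fun σ hσ x => ?_⟩
  obtain ⟨v, rfl⟩ := LevelMod.mk_surjective ρ I x
  rw [LevelMod.smul_mk, ← sub_eq_zero, ← map_sub, LevelMod.mk_eq_zero_iff]
  refine Submodule.smul_mono_left h (hLσ σ (fun x hx => ?_) v)
  exact (IntermediateField.mem_fixingSubgroup_iff L σ).1 hσ x hx

end Fermat.Agent.S32
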