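import Fermat.Agent.S32.SubQuot
import Fermat.Agent.S32.Pi

/-!
# S32 : if every `ℤ[GQ]`-relation which holds on `X` holds on `Y` then `HasPair X → HasPair Y`

`Y` is a module over the image `E` of `ℤ[GQ]` in `End X`; `E ⊆ X^X`; `Y` is a quotient of `E^Y`.
PROOF.  `Q := Y → (GQ →₀ ℤ)` with `letI : DistribMulAction GQ (GQ →₀ ℤ) := Finsupp.comapDistribMulAction`
(left translation: `Finsupp.comapSMul_def`, `Finsupp.comapSMul_single`), `P := Y × X → X` (pointwise action;
`HasPair.pi`), `Θ c (y, x) := gsum (c y) x`, `π c := ∑ y, gsum (c y) y`.  `gsum (σ • c) x = σ • gsum c x`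
(`Finsupp.sum_mapDomain_index`), `π (Pi.single y (single 1 1)) = y`.  Apply `HasPair.subquotient`.
-/

set_option autoImplicit false

noncomputable section

namespace Fermat.Agent.S32

open Fermat.Agent.S19

variable {A : ValuationSubring Qb}

section gsum

variable {X : Type} [AddCommGroup X] [DistribMulAction GQ X]

theorem gsum_add (c c' : GQ →₀ ℤ) (x : X) : gsum (c + c') x = gsum c x + gsum c' x := by
  unfold gsum
  exact Finsupp.sum_add_index' (fun g => zero_smul ℤ _) (fun g n m => add_smul n m _)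

theorem gsum_zero (x : X) : gsum (0 : GQ →₀ ℤ) x = 0 := by
  unfold gsum
  exact Finsupp.sum_zero_index

theorem gsum_single (g : GQ) (n : ℤ) (x : X) : gsum (Finsupp.single g n) x = n • (g • x) := by
  unfold gsum
  exact Finsupp.sum_single_index (zero_smul ℤ _)

theorem gsum_mapDomain (σ : GQ) (c : GQ →₀ ℤ) (x : X) :
    gsum (c.mapDomain (σ * ·)) x = σ • gsum c x := by
  unfold gsum
  rw [Finsupp.sum_mapDomain_index (h := fun g n => n • g • x) (fun g => zero_smul ℤ _)
    (fun g n m => add_smul n m _), Finsupp.smul_sum]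
  refine Finsupp.sum_congr fun g _ => ?_
  rw [mul_smul, smul_comm]

end gsum

theorem HasPair.of_relations {X Y : Type} [AddCommGroup X] [AddCommGroup Y]
    [DistribMulAction GQ X] [DistribMulAction GQ Y] [Finite X] [Finite Y] (h : HasPair A X)
    (hrel : ∀ c : GQ →₀ ℤ, (∀ x : X, gsum c x = 0) → ∀ y : Y, gsum c y = 0) : HasPair A Y := by
  classical
  have : Fintype Y := Fintype.ofFinite Y
  letI : DistribMulAction GQ (GQ →₀ ℤ) := Finsupp.comapDistribMulAction
  have hsm : ∀ (σ : GQ) (c : GQ →₀ ℤ), σ • c = c.mapDomain (σ * ·) :=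
    fun σ c => Finsupp.comapSMul_def σ c
  let Θ : (Y → (GQ →₀ ℤ)) →+ (Y × X → X) :=
    { toFun := fun c yx => gsum (c yx.1) yx.2
      map_zero' := by funext yx; exact gsum_zero _
      map_add' := fun c c' => by funext yx; exact gsum_add _ _ _ }
  let π : (Y → (GQ →₀ ℤ)) →+ Y :=
    { toFun := fun c => ∑ y, gsum (c y) y
      map_zero' := by simp [gsum_zero]
      map_add' := fun c c' => by simp [gsum_add, Finset.sum_add_distrib] }
  refine HasPair.subquotient Θ π ?_ ?_ ?_ ?_ (HasPair.pi h)
  · intro σ c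
    funext yx
    show gsum ((σ • c) yx.1) yx.2 = σ • gsum (c yx.1) yx.2
    rw [Pi.smul_apply, hsm, gsum_mapDomain]
  · intro σ c
    show ∑ y, gsum ((σ • c) y) y = σ • ∑ y, gsum (c y) y
    rw [Finset.smul_sum]
    refine Finset.sum_congr rfl fun y _ => ?_
    rw [Pi.smul_apply, hsm, gsum_mapDomain]
  · intro y
    refine ⟨Pi.single y (Finsupp.single 1 1), ?_⟩
    show ∑ y', gsum ((Pi.single y (Finsupp.single 1 1) : Y → (GQ →₀ ℤ)) y') y' = y
    rw [Finset.sum_eq_single y]
    · rw [Pi.single_eq_same, gsum_single, one_smul, one_smul]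
    · intro b _ hb
      rw [Pi.single_eq_of_ne hb, gsum_zero]
    · intro h
      exact absurd (Finset.mem_univ y) h
  · intro c hc
    show ∑ y, gsum (c y) y = 0
    refine Finset.sum_eq_zero fun y _ => hrel (c y) (fun x => ?_) y
    exact congrFun hc (y, x)

end Fermat.Agent.S32
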