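import Fermat.Agent.S32.MDRing
import Fermat.Agent.S32.Char

/-!
# S32 : `HasPair` passes to sub-quotients

`Θ : Q → P`, `π : Q → Y` equivariant, `π` onto, `ker Θ ⊆ ker π` (so `Y` is a quotient of the submodule
`Θ(Q)` of `P`).  PROOF.  `(W, e)` for `P`.  `W' := {w | ∀ c, π c = 0 → e (Θ c) w = 1}`, a `GQ`-stable
subgroup of `W` (`e (Θ c) (σ • w) = σ (e (Θ (σ⁻¹ • c)) w)`), `e' y w := e (Θ c) w` for any `c` with `π c = y`
(well defined on `W'`).  Left non degenerate: `y = π c ≠ 0`; `Z := Θ (ker π)`; `Θ c ∉ Z` (if `Θ c = Θ c'`,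
`π c' = 0`, then `Θ (c - c') = 0`, so `π c = π c' = 0`); `exists_char_sep` gives a character `χ` of `P`,
trivial on `Z`, `χ (Θ c) ≠ 1`; `exists_eq_pairing`: `χ = e · w`; `w ∈ W'`.  `e' y = e (Θ c) ∘ Subtype.val ∈ MD A W'`
by `comp_mem_MD`.  `FinLevel W'`, `Finite W'` are inherited from `W`.
The `DistribMulAction GQ W'` on the subtype: `Function.Injective.distribMulAction W'.subtype ..`.
-/

set_option autoImplicit false

noncomputable section

namespace Fermat.Agent.S32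

open Fermat.Agent.S19

variable {A : ValuationSubring Qb}

section aux

variable {Q P Y W : Type} [AddCommGroup Q] [AddCommGroup P] [AddCommGroup Y] [AddCommGroup W]
  [DistribMulAction GQ Q] [DistribMulAction GQ P] [DistribMulAction GQ Y] [DistribMulAction GQ W]

/-- the orthogonal of `Θ (ker π)`. -/
def SubQuot_W (Θ : Q →+ P) (π : Q →+ Y) {e : P → W → Qb} (he : IsPairing e) : AddSubgroup W where
  carrier := {w | ∀ c, π c = 0 → e (Θ c) w = 1}
  zero_mem' := fun c _ => IsPairing.map_zero_right he _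
  add_mem' := by
    intro w w' hw hw' c hc
    rw [he.add_right, hw c hc, hw' c hc, one_mul]
  neg_mem' := by
    intro w hw c hc
    rw [IsPairing.map_neg_right he, hw c hc, inv_one]

theorem SubQuot_mem_W {Θ : Q →+ P} {π : Q →+ Y} {e : P → W → Qb} {he : IsPairing e} {w : W} :
    w ∈ SubQuot_W Θ π he ↔ ∀ c, π c = 0 → e (Θ c) w = 1 := Iff.rfl

theorem SubQuot_smul_mem {Θ : Q →+ P} {π : Q →+ Y} {e : P → W → Qb} {he : IsPairing e}
    (hΘ : ∀ (σ : GQ) (c : Q), Θ (σ • c) = σ • Θ c)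
    (hπ : ∀ (σ : GQ) (c : Q), π (σ • c) = σ • π c) (σ : GQ) {w : W}
    (hw : w ∈ SubQuot_W Θ π he) : σ • w ∈ SubQuot_W Θ π he := by
  intro c hc
  have h1 : Θ c = σ • Θ (σ⁻¹ • c) := by rw [← hΘ, smul_inv_smul]
  have h2 : π (σ⁻¹ • c) = 0 := by rw [hπ, hc, smul_zero]
  rw [h1, he.equiv, hw _ h2, map_one]

/-- the action of `GQ` on `W'`. -/
@[instance_reducible] def SubQuot_act {Θ : Q →+ P} {π : Q →+ Y} {e : P → W → Qb} (he : IsPairing e)
    (hΘ : ∀ (σ : GQ) (c : Q), Θ (σ • c) = σ • Θ c)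
    (hπ : ∀ (σ : GQ) (c : Q), π (σ • c) = σ • π c) :
    DistribMulAction GQ (SubQuot_W Θ π he) :=
  letI : SMul GQ (SubQuot_W Θ π he) := ⟨fun σ w => ⟨σ • w.1, SubQuot_smul_mem hΘ hπ σ w.2⟩⟩
  Function.Injective.distribMulAction (SubQuot_W Θ π he).subtype Subtype.val_injective
    (fun _ _ => rfl)

/-- the induced pairing. -/
def SubQuot_e (Θ : Q →+ P) {π : Q →+ Y} (hsurj : Function.Surjective π) {e : P → W → Qb}
    (he : IsPairing e) : Y → SubQuot_W Θ π he → Qb :=
  fun y w => e (Θ (hsurj y).choose) w.1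

theorem SubQuot_e_apply (Θ : Q →+ P) {π : Q →+ Y} (hsurj : Function.Surjective π)
    {e : P → W → Qb} (he : IsPairing e) (c : Q) (w : SubQuot_W Θ π he) :
    SubQuot_e Θ hsurj he (π c) w = e (Θ c) w.1 := by
  have h1 : π ((hsurj (π c)).choose - c) = 0 := by
    rw [map_sub, (hsurj (π c)).choose_spec, sub_self]
  have h2 := w.2 _ h1
  rw [map_sub, IsPairing.map_sub_left he, div_eq_one_iff_eq (he.ne_zero _ _)] at h2
  exact h2

end aux

theorem HasPair.subquotient {Q P Y : Type} [AddCommGroup Q] [AddCommGroup P] [AddCommGroup Y]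
    [DistribMulAction GQ Q] [DistribMulAction GQ P] [DistribMulAction GQ Y] [Finite P]
    (Θ : Q →+ P) (π : Q →+ Y) (hΘ : ∀ (σ : GQ) (c : Q), Θ (σ • c) = σ • Θ c)
    (hπ : ∀ (σ : GQ) (c : Q), π (σ • c) = σ • π c) (hsurj : Function.Surjective π)
    (hker : ∀ c, Θ c = 0 → π c = 0) (h : HasPair A P) : HasPair A Y := by
  obtain ⟨W, iW, aW, hfin, ⟨L, hL, hLfix⟩, e, he, hMD⟩ := h
  let _ := SubQuot_act he hΘ hπ
  refine ⟨SubQuot_W Θ π he, inferInstance, SubQuot_act he hΘ hπ, inferInstance,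
    ⟨L, hL, fun σ hσ w => Subtype.ext (hLfix σ hσ w.1)⟩, SubQuot_e Θ hsurj he, ?_, ?_⟩
  · refine ⟨?_, ?_, ?_, ?_, ?_⟩
    · intro y y' w
      obtain ⟨c, rfl⟩ := hsurj y
      obtain ⟨c', rfl⟩ := hsurj y'
      rw [← map_add, SubQuot_e_apply, SubQuot_e_apply, SubQuot_e_apply, map_add, he.add_left]
    · intro y w w'
      exact he.add_right _ _ _
    · intro y w
      exact he.ne_zero _ _
    · intro σ y w
      obtain ⟨c, rfl⟩ := hsurj y
      rw [← hπ, SubQuot_e_apply, SubQuot_e_apply, hΘ]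
      exact he.equiv σ _ _
    · intro y hy
      obtain ⟨c, rfl⟩ := hsurj y
      by_contra hne
      have hnot : Θ c ∉ (π.ker).map Θ := by
        rintro ⟨c', hc', hcc⟩
        apply hne
        have h1 : π (c - c') = 0 := hker _ (by rw [map_sub, hcc, sub_self])
        rw [map_sub, AddMonoidHom.mem_ker.mp hc', sub_zero] at h1
        exact h1
      obtain ⟨χ, hadd, h0, hZ, hχ⟩ := exists_char_sep _ hnot
      obtain ⟨w, hw⟩ := exists_eq_pairing he χ hadd h0
      have hwW : w ∈ SubQuot_W Θ π he := by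
        intro c' hc'
        rw [← hw]
        exact hZ _ ⟨c', hc', rfl⟩
      apply hχ
      rw [hw, ← hy ⟨w, hwW⟩, SubQuot_e_apply]
  · intro y
    exact comp_mem_MD (A := A) (X := W) (Y := SubQuot_W Θ π he) Subtype.val (fun _ _ => rfl)
      (hMD (Θ (hsurj y).choose))

end Fermat.Agent.S32
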